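import Fermat.Prelude.Def_WeierstrassCurve_Mlc1RowStatement
import Fermat.Prelude.Def_WeierstrassCurve_ConductorLevel
import Fermat.Prelude.Def_FLTPrelim_ModularRep
import Fermat.Prelude.Def_CuspForm_HeckeAlgebra

/-!
# Row S59 — top layer glue (helper239)

Architecture: `coord/S59-arch-helper239.md` (origin/helper239).

* `S58Statement`, `S59Statement` : the frozen statements S58, S59 as `Prop`s.
* `MLStatement`  : modularity at SOME cube-free level (output of the `R = T` machine).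
* `RTStatement`  : the `R = T` output in Hecke-algebra form (an integral character of the anemic
  Hecke algebra with values `a_ℓ(W)`).
* `EigenformOfCharStatement` : (E1) an integral character gives a normalised eigenform after
  stabilisation at the primes of `S` not dividing the level.
* `s59_of : S58Statement → MLStatement → S59Statement`   (T0)
* `ml_of : RTStatement → EigenformOfCharStatement → MLStatement`   (T1)
-/

set_option autoImplicit false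

namespace Fermat.Agent.S59.H239

open WeierstrassCurve

/-- The frozen statement S58 (conductor-level matching). -/
def S58Statement : Prop :=
  ∀ (W : WeierstrassCurve ℤ) (_hss : W.IsSemistableModel) (N : ℕ)
    (p : ℕ) [Fact p.Prime] (_hp2 : p ≠ 2) (_hirr : W.ModRepIsIrreducible p)
    (_hp2N : ¬ p ^ 2 ∣ N)
    (_hN : W.IsModularModelOfLevel N) (_hbad : ∀ ℓ : ℕ, ℓ.Prime → (ℓ : ℤ) ∣ W.Δ → ℓ ∣ N)
    (_hN3 : ∀ q : ℕ, q.Prime → ¬ q ^ 3 ∣ N),
    W.IsModularModelOfLevel W.conductorLevel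

/-- The frozen statement S59 (modularity lifting at `p = 3, 5`). -/
def S59Statement : Prop :=
  ∀ (p : ℕ) (_hp : p = 3 ∨ p = 5)
    (W : WeierstrassCurve ℤ) (_hΔ : W.Δ ≠ 0) (_hW : W.IsSemistableModel)
    (_hirr : W.ModRepIsIrreducible p)
    (M₀ : ℕ) [NeZero M₀] (_hres₀ : W.IsResiduallyModularOfLevel p M₀)
    (_hM₀ : ¬ p ^ 2 ∣ M₀)
    (_hM₀3 : ∀ q : ℕ, q.Prime → q ≠ p → ¬ q ^ 3 ∣ M₀),
    Mlc1IsModularModelOfExactConductorLevel W

/-- (ML) modularity of `W` at some cube-free level, prime-to-`p²`, divisible by the bad primes. -/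
def MLStatement : Prop :=
  ∀ (p : ℕ) (_hp : p = 3 ∨ p = 5)
    (W : WeierstrassCurve ℤ) (_hΔ : W.Δ ≠ 0) (_hW : W.IsSemistableModel)
    (_hirr : W.ModRepIsIrreducible p)
    (M₀ : ℕ) [NeZero M₀] (_hres₀ : W.IsResiduallyModularOfLevel p M₀)
    (_hM₀ : ¬ p ^ 2 ∣ M₀)
    (_hM₀3 : ∀ q : ℕ, q.Prime → q ≠ p → ¬ q ^ 3 ∣ M₀),
    ∃ N : ℕ, ¬ p ^ 2 ∣ N ∧ (∀ q : ℕ, q.Prime → ¬ q ^ 3 ∣ N) ∧
      (∀ ℓ : ℕ, ℓ.Prime → (ℓ : ℤ) ∣ W.Δ → ℓ ∣ N) ∧ W.IsModularModelOfLevel N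

/-- **T0**: S59 from S58 and (ML). -/
theorem s59_of (h58 : S58Statement) (hML : MLStatement) : S59Statement := by
  intro p hp W hΔ hW hirr M₀ _ hres hM₀ hM₀3
  obtain ⟨N, hpN, hN3, hbad, hmod⟩ := hML p hp W hΔ hW hirr M₀ hres hM₀ hM₀3
  have hpp : p.Prime := by
    rcases hp with rfl | rfl
    · exact Nat.prime_three
    · exact Nat.prime_five
  haveI : Fact p.Prime := ⟨hpp⟩
  have hp2 : p ≠ 2 := by
    rcases hp with rfl | rfl <;> decide
  have h := h58 W hW N p hp2 hirr hpN hmod hbad hN3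
  exact ⟨W.conductorLevel, W.conductorLevel_pos, W.squarefree_conductorLevel,
    fun q hq => W.prime_dvd_conductorLevel_iff hΔ hq, h⟩

/-- The set of primes of `S` not dividing `N`, multiplied into the level. -/
noncomputable def stabLevel (N : ℕ) (S : Finset ℕ) : ℕ :=
  N * ∏ ℓ ∈ S.filter (fun ℓ => ℓ.Prime ∧ ¬ ℓ ∣ N), ℓ

/-- (RT) the output of `R = T`: an integral character of the anemic Hecke algebra of a cube-free
level `N` (prime to `p²`, divisible by the bad primes), away from a finite set `S` of primes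
containing the primes of `N`, with `χ(T_ℓ) = a_ℓ(W)` for all primes `ℓ ∉ S`. -/
def RTStatement : Prop :=
  ∀ (p : ℕ) (_hp : p = 3 ∨ p = 5)
    (W : WeierstrassCurve ℤ) (_hΔ : W.Δ ≠ 0) (_hW : W.IsSemistableModel)
    (_hirr : W.ModRepIsIrreducible p)
    (M₀ : ℕ) [NeZero M₀] (_hres₀ : W.IsResiduallyModularOfLevel p M₀)
    (_hM₀ : ¬ p ^ 2 ∣ M₀)
    (_hM₀3 : ∀ q : ℕ, q.Prime → q ≠ p → ¬ q ^ 3 ∣ M₀),
    ∃ (N : ℕ) (_ : NeZero N) (S : Finset ℕ),
      ¬ p ^ 2 ∣ N ∧ (∀ q : ℕ, q.Prime → ¬ q ^ 3 ∣ N) ∧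
      (∀ ℓ : ℕ, ℓ.Prime → (ℓ : ℤ) ∣ W.Δ → ℓ ∣ N) ∧
      (∀ ℓ ∈ S, ℓ.Prime) ∧ (∀ ℓ ∈ S, ℓ = p ∨ ℓ ∣ N) ∧
      ∃ χ : CuspForm.heckeAlgebra N 2 (↑S : Set ℕ) →+* ℤ,
        ∀ (ℓ : ℕ) (hℓ : ℓ.Prime) (hℓN : ¬ ℓ ∣ N) (hℓS : ℓ ∉ (↑S : Set ℕ)),
          χ (CuspForm.heckeAlgebra.T hℓ hℓN hℓS) = W.apOfModel ℓ

/-- (E1) An integral character of the anemic Hecke algebra of level `N` away from `S` with values
`a_ℓ(W)` gives a normalised eigenform of level `N` (if `p ∣ N`) or `N * p`, whose coefficients at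
the good primes not dividing the level are the `a_ℓ(W)`. -/
def EigenformOfCharStatement : Prop :=
  ∀ (W : WeierstrassCurve ℤ) (N : ℕ) [NeZero N] (S : Finset ℕ) (p : ℕ), p.Prime →
    (∀ ℓ ∈ S, ℓ.Prime) → (∀ ℓ ∈ S, ℓ = p ∨ ℓ ∣ N) →
    (χ : CuspForm.heckeAlgebra N 2 (↑S : Set ℕ) →+* ℤ) →
    (∀ (ℓ : ℕ) (hℓ : ℓ.Prime) (hℓN : ¬ ℓ ∣ N) (hℓS : ℓ ∉ (↑S : Set ℕ)),
      χ (CuspForm.heckeAlgebra.T hℓ hℓN hℓS) = W.apOfModel ℓ) →
    W.IsModularModelOfLevel (if p ∣ N then N else N * p)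

/-- **T1**: (ML) from (RT) and (E1). -/
theorem ml_of (hRT : RTStatement) (hE1 : EigenformOfCharStatement) : MLStatement := by
  intro p hp W hΔ hW hirr M₀ _ hres hM₀ hM₀3
  obtain ⟨N, hNZ, S, hpN, hN3, hbad, hSprime, hSN, χ, hχ⟩ :=
    hRT p hp W hΔ hW hirr M₀ hres hM₀ hM₀3
  have hpp : p.Prime := by
    rcases hp with rfl | rfl
    · exact Nat.prime_three
    · exact Nat.prime_five
  have hmod := hE1 W N S p hpp hSprime hSN χ hχ
  by_cases hdvd : p ∣ N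
  · rw [if_pos hdvd] at hmod
    exact ⟨N, hpN, hN3, hbad, hmod⟩
  · rw [if_neg hdvd] at hmod
    refine ⟨N * p, ?_, ?_, fun ℓ hℓ hℓΔ => Dvd.dvd.mul_right (hbad ℓ hℓ hℓΔ) p, hmod⟩
    · -- `p² ∤ N p` since `p ∤ N`
      intro h
      rw [pow_two] at h
      exact hdvd ((Nat.mul_dvd_mul_iff_right hpp.pos).mp h)
    · intro q hq h
      by_cases hqp : q = p
      · subst hqp
        -- `q³ ∣ N q` forces `q ∣ N`
        have h2 : q ^ 2 ∣ N := by
          have : q ^ 2 * q ∣ N * q := by rwa [← pow_succ]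
          exact (Nat.mul_dvd_mul_iff_right hq.pos).mp this
        exact hdvd (dvd_trans (dvd_pow_self q two_ne_zero) h2)
      · -- `q ≠ p`: `q³` is coprime to `p`
        have hcop : Nat.Coprime (q ^ 3) p :=
          Nat.Coprime.pow_left 3 ((Nat.coprime_primes hq hpp).mpr hqp)
        exact hN3 q hq (hcop.dvd_of_dvd_mul_right h)

end Fermat.Agent.S59.H239
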